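/-
S25 / block ABEL, sub-block AB-ALG (helper747): base change of `Hom` for finitely generated
projective modules, and invertibility of `Hom` of invertible modules.  Mathlib only.
(Mathlib has `IsBaseChange.linearMapLeftRight` only for finite FREE sources.)
-/
import Mathlib

set_option autoImplicit false

namespace Fermat.Agent.S25.H747

open TensorProduct LinearMap Module

section HomBC

variable {R : Type*} [CommRing R] {S : Type*} [CommRing S] [Algebra R S]
  {M : Type*} [AddCommGroup M] [Module R M]
  {N : Type*} [AddCommGroup N] [Module R N]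
  {P : Type*} [AddCommGroup P] [Module R P] [Module S P] [IsScalarTower R S P]

/-- Naturality of `IsBaseChange.linearMapRightBaseChangeHom` in the source. -/
theorem linearMapRightBaseChangeHom_lcomp {M' : Type*} [AddCommGroup M'] [Module R M']
    (u : M' →ₗ[R] M) (ε : N →ₗ[R] P) (z : S ⊗[R] (M →ₗ[R] N)) :
    IsBaseChange.linearMapRightBaseChangeHom S M' ε ((u.lcomp R N).baseChange S z) =
      (IsBaseChange.linearMapRightBaseChangeHom S M ε z) ∘ₗ u := by
  induction z using TensorProduct.induction_on with
  | zero => simp
  | add x y hx hy => simp only [map_add, hx, hy, LinearMap.add_comp]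
  | tmul s f =>
    ext m
    simp [IsBaseChange.linearMapRightBaseChangeHom]

/-- `S ⊗ Hom_R(M, N) → Hom_R(M, P)` is bijective for `M` finitely generated projective and
`P` a base change of `N`. -/
theorem linearMapRightBaseChangeHom_bijective [Module.Finite R M] [Projective R M]
    {ε : N →ₗ[R] P} (ibc : IsBaseChange S ε) :
    Function.Bijective (IsBaseChange.linearMapRightBaseChangeHom S M ε) := by
  obtain ⟨n, f, g, -, -, eq⟩ := Finite.exists_comp_eq_id_of_projective R M
  -- `f : (Fin n → R) → M`, `g : M → (Fin n → R)`, `f ∘ g = id`
  have hfree : Function.Bijective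
      (IsBaseChange.linearMapRightBaseChangeHom S (Fin n → R) ε) :=
    (IsBaseChange.linearMapRightBaseChangeEquiv (Fin n → R) ibc).bijective
  constructor
  · -- injective: precompose with `f`
    intro z₁ z₂ h
    have h1 : (f.lcomp R N).baseChange S z₁ = (f.lcomp R N).baseChange S z₂ := by
      apply hfree.1
      rw [linearMapRightBaseChangeHom_lcomp, linearMapRightBaseChangeHom_lcomp, h]
    have h2 := congrArg ((g.lcomp R N).baseChange S) h1
    have key : ∀ z : S ⊗[R] (M →ₗ[R] N),
        (g.lcomp R N).baseChange S ((f.lcomp R N).baseChange S z) = z := by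
      intro z
      rw [← LinearMap.comp_apply, ← LinearMap.baseChange_comp]
      have : (g.lcomp R N) ∘ₗ (f.lcomp R N) = LinearMap.id := by
        ext φ m
        simp only [LinearMap.comp_apply, LinearMap.lcomp_apply, LinearMap.id_apply]
        exact congrArg φ (congr($eq m))
      rw [this, LinearMap.baseChange_id, LinearMap.id_apply]
    rwa [key, key] at h2
  · intro h
    obtain ⟨z, hz⟩ := hfree.2 (h ∘ₗ f)
    refine ⟨(g.lcomp R N).baseChange S z, ?_⟩
    rw [linearMapRightBaseChangeHom_lcomp, hz, LinearMap.comp_assoc, eq, LinearMap.comp_id]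

/-- `Hom_R(M, P)` is a base change of `Hom_R(M, N)` when `M` is finitely generated projective. -/
theorem isBaseChange_compRight [Module.Finite R M] [Projective R M]
    {ε : N →ₗ[R] P} (ibc : IsBaseChange S ε) :
    IsBaseChange S (LinearMap.compRight (M := M) R ε) := by
  apply IsBaseChange.of_equiv
    (LinearEquiv.ofBijective _ (linearMapRightBaseChangeHom_bijective (M := M) ibc))
  intro f
  simp [IsBaseChange.linearMapRightBaseChangeHom]

variable {Q : Type*} [AddCommGroup Q] [Module R Q] [Module S Q] [IsScalarTower R S Q]

/-- **Base change of `Hom`** for a finitely generated projective source: if `α : M → P` and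
`β : N → Q` are base changes along `R → S`, then so is
`IsBaseChange.linearMapLeftRightHom : Hom_R(M, N) → Hom_S(P, Q)`. -/
theorem isBaseChange_linearMapLeftRightHom [Module.Finite R M] [Projective R M]
    {α : M →ₗ[R] P} (j : IsBaseChange S α) {β : N →ₗ[R] Q} (k : IsBaseChange S β) :
    IsBaseChange S (IsBaseChange.linearMapLeftRightHom j β) := by
  apply IsBaseChange.of_equiv <|
      (isBaseChange_compRight (M := M) k).equiv ≪≫ₗ liftBaseChangeEquiv S ≪≫ₗ
        LinearEquiv.congrLeft Q S j.equiv
  intro f
  ext p
  simp [IsBaseChange.equiv_tmul, LinearEquiv.congrLeft, IsBaseChange.linearMapLeftRightHom_apply]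

end HomBC

section Inv

variable {R : Type*} [CommRing R] {M N : Type*} [AddCommGroup M] [Module R M]
  [AddCommGroup N] [Module R N]

/-- `Hom` of invertible modules is invertible. -/
theorem invertible_linearMap [Module.Invertible R M] [Module.Invertible R N] :
    Module.Invertible R (M →ₗ[R] N) :=
  Module.Invertible.congr (LinearEquiv.ofBijective (dualTensorHom R M N) dualTensorHom_bijective)

end Inv

end Fermat.Agent.S25.H747
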