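/-
S25 / block ABEL, sub-block AB-ALG (helper747): internal Hom of gluing data and the gluing
datum of a compatible triple of invertible ideals.  Imports the frozen `DefsAlg` only.
-/
import Fermat.Agent.S25.DefsAlg
import Fermat.Agent.S25.H747.HomBC

set_option autoImplicit false
universe u
open scoped TensorProduct

namespace Fermat.Agent.S25.H747

open Fermat.Agent.S25

noncomputable section

variable {A R₀ R₁ R₀₁ : Type u} [CommRing A] [CommRing R₀] [CommRing R₁]
    [CommRing R₀₁] [Algebra A R₀] [Algebra A R₁] [Algebra A R₀₁] [Algebra R₀ R₀₁]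
    [Algebra R₁ R₀₁] [IsScalarTower A R₀ R₀₁] [IsScalarTower A R₁ R₀₁]

/-- The internal Hom `ℋom(G, G')` of two gluing data: sections are module homomorphisms,
restriction is `IsBaseChange.linearMapLeftRightHom`. -/
def homDatum (G G' : GlueDatum A R₀ R₁ R₀₁) : GlueDatum A R₀ R₁ R₀₁ :=
  haveI := G.invertible₀
  haveI := G.invertible₁
  haveI := G'.invertible₀
  haveI := G'.invertible₁
  { N₀ := G.N₀ →ₗ[R₀] G'.N₀
    N₁ := G.N₁ →ₗ[R₁] G'.N₁
    N₀₁ := G.N₀₁ →ₗ[R₀₁] G'.N₀₁
    r₀ := IsBaseChange.linearMapLeftRightHom G.isBaseChange₀ G'.r₀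
    r₁ := IsBaseChange.linearMapLeftRightHom G.isBaseChange₁ G'.r₁
    isBaseChange₀ := isBaseChange_linearMapLeftRightHom G.isBaseChange₀ G'.isBaseChange₀
    isBaseChange₁ := isBaseChange_linearMapLeftRightHom G.isBaseChange₁ G'.isBaseChange₁
    invertible₀ := invertible_linearMap
    invertible₁ := invertible_linearMap }

/-- The restriction of a ring homomorphism `R → S` (an algebra map) to ideals `I → J`,
where `J` contains the extension of `I`. -/
def idealRes {R S : Type u} [CommRing R] [CommRing S] [Algebra R S] (I : Ideal R) (J : Ideal S)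
    (h : I.map (algebraMap R S) ≤ J) : I →ₗ[R] J where
  toFun a := ⟨algebraMap R S a, h (Ideal.mem_map_of_mem _ a.2)⟩
  map_add' a b := by ext; simp
  map_smul' r a := by ext; simp [Algebra.smul_def]

@[simp] theorem idealRes_coe {R S : Type u} [CommRing R] [CommRing S] [Algebra R S]
    (I : Ideal R) (J : Ideal S) (h : I.map (algebraMap R S) ≤ J) (a : I) :
    ((idealRes I J h a : J) : S) = algebraMap R S a := rfl

/-- A compatible triple of invertible ideals on the cospan `R₀ → R₀₁ ← R₁`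
(an effective Cartier divisor on the glued scheme). -/
structure IsCartierTriple (I₀ : Ideal R₀) (I₁ : Ideal R₁) (I₀₁ : Ideal R₀₁) : Prop where
  map₀ : I₀.map (algebraMap R₀ R₀₁) = I₀₁
  map₁ : I₁.map (algebraMap R₁ R₀₁) = I₀₁
  inv₀ : Module.Invertible R₀ I₀
  inv₁ : Module.Invertible R₁ I₁
  bc₀ : IsBaseChange R₀₁ (idealRes I₀ I₀₁ map₀.le)
  bc₁ : IsBaseChange R₀₁ (idealRes I₁ I₀₁ map₁.le)

variable (A) in
/-- The gluing datum `O(-D)` of a compatible triple of invertible ideals. -/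
def ofIdeals {I₀ : Ideal R₀} {I₁ : Ideal R₁} {I₀₁ : Ideal R₀₁}
    (h : IsCartierTriple I₀ I₁ I₀₁) : GlueDatum A R₀ R₁ R₀₁ where
  N₀ := I₀
  N₁ := I₁
  N₀₁ := I₀₁
  r₀ := idealRes I₀ I₀₁ h.map₀.le
  r₁ := idealRes I₁ I₀₁ h.map₁.le
  isBaseChange₀ := h.bc₀
  isBaseChange₁ := h.bc₁
  invertible₀ := h.inv₀
  invertible₁ := h.inv₁

/-- The `ρ`-semilinear restriction `I → J` of a ring homomorphism to ideals. -/
def idealMapₛₗ {R R' : Type u} [CommRing R] [CommRing R'] (ρ : R →+* R') (I : Ideal R)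
    (J : Ideal R') (h : I.map ρ ≤ J) : I →ₛₗ[ρ] J where
  toFun a := ⟨ρ a, h (Ideal.mem_map_of_mem _ a.2)⟩
  map_add' a b := by ext; simp
  map_smul' r a := by ext; simp

@[simp] theorem idealMapₛₗ_coe {R R' : Type u} [CommRing R] [CommRing R'] (ρ : R →+* R')
    (I : Ideal R) (J : Ideal R') (h : I.map ρ ≤ J) (a : I) :
    ((idealMapₛₗ ρ I J h a : J) : R') = ρ a := rfl

end

end Fermat.Agent.S25.H747
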