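/-
S25 / block ABEL, sub-block AB-ALG = `Stmt.AlgAbel` (sub-block owner helper747).
FROZEN definitions: ideals of a chart point, the algebraic Abel datum
`abelDatum e g A P = ℋom(O(-Σ Γ_{P i}), O(-g·ε))`.  Only definitions, no proofs needed.
Board: origin/helper747:coord/S25-ABALG.md.
-/
import Fermat.Agent.S25.DefsAlg
import Fermat.Agent.S25.H746.AbelDefs
import Fermat.Agent.S25.H747.GDHom

set_option autoImplicit false
universe u
open scoped TensorProduct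

namespace Fermat.Agent.S25.H747

open Fermat.Agent.S25

noncomputable section

variable {k : Type u} [Field k]

section Graph

variable {A : Type u} [CommRing A] [Algebra k A] {B : Type u} [CommRing B] [Algebra k B]

/-- Evaluation `A ⊗[k] B → A`, `a ⊗ b ↦ a * φ b`, at an `A`-valued point `φ` of `Spec B`. -/
def evalHom (φ : B →ₐ[k] A) : A ⊗[k] B →ₐ[A] A :=
  Algebra.TensorProduct.lift (AlgHom.id A A) φ (fun _ _ => Commute.all _ _)

@[simp] theorem evalHom_tmul (φ : B →ₐ[k] A) (a : A) (b : B) :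
    evalHom φ (a ⊗ₜ[k] b) = a * φ b := by
  simp [evalHom]

/-- The ideal of the graph of an `A`-valued point `φ` of `Spec B`. -/
def graphIdeal (φ : B →ₐ[k] A) : Ideal (A ⊗[k] B) := RingHom.ker (evalHom φ)

end Graph

section Chart

variable {B₀ B₁ B₀₁ : Type u} [CommRing B₀] [CommRing B₁] [CommRing B₀₁]
  [Algebra k B₀] [Algebra k B₁] [Algebra k B₀₁] [Algebra B₀ B₀₁] [Algebra B₁ B₀₁]
  [IsScalarTower k B₀ B₀₁] [IsScalarTower k B₁ B₀₁]
  {A : Type u} [CommRing A] [Algebra k A]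

variable (B₀₁) in
/-- The ideal on the chart `Spec (A ⊗ B₀)` of (the graph of) a chart point. -/
def ptI₀ : H746.ChartPt k B₀ B₁ A → Ideal (A ⊗[k] B₀)
  | Sum.inl φ => graphIdeal φ
  | Sum.inr φ => ((graphIdeal φ).map (algebraMap (A ⊗[k] B₁) (A ⊗[k] B₀₁))).comap
      (algebraMap (A ⊗[k] B₀) (A ⊗[k] B₀₁))

variable (B₀₁) in
/-- The ideal on the chart `Spec (A ⊗ B₁)` of (the graph of) a chart point. -/
def ptI₁ : H746.ChartPt k B₀ B₁ A → Ideal (A ⊗[k] B₁)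
  | Sum.inl φ => ((graphIdeal φ).map (algebraMap (A ⊗[k] B₀) (A ⊗[k] B₀₁))).comap
      (algebraMap (A ⊗[k] B₁) (A ⊗[k] B₀₁))
  | Sum.inr φ => graphIdeal φ

variable (B₀₁) in
/-- The ideal on the intersection `Spec (A ⊗ B₀₁)` of (the graph of) a chart point. -/
def ptI₀₁ : H746.ChartPt k B₀ B₁ A → Ideal (A ⊗[k] B₀₁)
  | Sum.inl φ => (graphIdeal φ).map (algebraMap (A ⊗[k] B₀) (A ⊗[k] B₀₁))
  | Sum.inr φ => (graphIdeal φ).map (algebraMap (A ⊗[k] B₁) (A ⊗[k] B₀₁))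

variable (B₀₁) in
/-- The ideal on chart `0` of the divisor `Σ Γ_{P i}` of a tuple of chart points. -/
def tupI₀ {g : ℕ} (P : Fin g → H746.ChartPt k B₀ B₁ A) : Ideal (A ⊗[k] B₀) :=
  ∏ i, ptI₀ B₀₁ (P i)

variable (B₀₁) in
/-- The ideal on chart `1` of the divisor `Σ Γ_{P i}` of a tuple of chart points. -/
def tupI₁ {g : ℕ} (P : Fin g → H746.ChartPt k B₀ B₁ A) : Ideal (A ⊗[k] B₁) :=
  ∏ i, ptI₁ B₀₁ (P i)

variable (B₀₁) in
/-- The ideal on the intersection of the divisor `Σ Γ_{P i}` of a tuple of chart points. -/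
def tupI₀₁ {g : ℕ} (P : Fin g → H746.ChartPt k B₀ B₁ A) : Ideal (A ⊗[k] B₀₁) :=
  ∏ i, ptI₀₁ B₀₁ (P i)

variable (B₀) in
/-- The marked point `ε`, base changed to `A`, as a chart point. -/
def epsPt (e : B₁ →ₐ[k] k) (A : Type u) [CommRing A] [Algebra k A] : H746.ChartPt k B₀ B₁ A :=
  Sum.inr ((Algebra.ofId k A).comp e)

/-- The tuple of chart points `P` defines an effective Cartier divisor on `C_A`. -/
def TupCartier {g : ℕ} (P : Fin g → H746.ChartPt k B₀ B₁ A) : Prop :=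
  IsCartierTriple (tupI₀ B₀₁ P) (tupI₁ B₀₁ P) (tupI₀₁ B₀₁ P)

open Classical in
/-- **The algebraic Abel datum** `ℋom(O(-Σ Γ_{P i}), O(-g·ε)) = O(Σ Γ_{P i} - g·ε)` of a
`g`-tuple of chart points.  (The `else` branch never occurs for a curve chart: leaf AA1.) -/
def abelDatum (e : B₁ →ₐ[k] k) (g : ℕ) (A : Type u) [CommRing A] [Algebra k A]
    (P : Fin g → H746.ChartPt k B₀ B₁ A) : CurveGD k B₀ B₁ B₀₁ A :=
  if h : TupCartier (B₀₁ := B₀₁) P ∧ TupCartier (B₀₁ := B₀₁) (fun _ : Fin g => epsPt B₀ e A) then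
    homDatum (ofIdeals A h.1) (ofIdeals A h.2)
  else GlueDatum.unit A (A ⊗[k] B₀) (A ⊗[k] B₁) (A ⊗[k] B₀₁)

theorem abelDatum_eq (e : B₁ →ₐ[k] k) (g : ℕ) (A : Type u) [CommRing A] [Algebra k A]
    (P : Fin g → H746.ChartPt k B₀ B₁ A) (h : TupCartier (B₀₁ := B₀₁) P)
    (h' : TupCartier (B₀₁ := B₀₁) (fun _ : Fin g => epsPt B₀ e A)) :
    abelDatum (B₀₁ := B₀₁) e g A P = homDatum (ofIdeals A h) (ofIdeals A h') := by
  rw [abelDatum, dif_pos ⟨h, h'⟩]

variable (k B₀ B₁ B₀₁) in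
/-- The genus: `dim_k Ȟ¹` of the unit gluing datum over `k`. -/
def genus : ℕ :=
  Module.finrank k (GlueDatum.unit k (k ⊗[k] B₀) (k ⊗[k] B₁) (k ⊗[k] B₀₁)).H1

end Chart

end

end Fermat.Agent.S25.H747
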