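/-
S25 / block ABEL, sub-block AB-ALG (helper747), leaf C1: for a curve chart the cospan
`A ⊗ B₀ → A ⊗ B₀₁ ← A ⊗ B₁` is a cospan of localizations; injectivity of the legs.
-/
import Fermat.Agent.S25.H747.AbAlgDefs

set_option autoImplicit false
universe u
open scoped TensorProduct

namespace Fermat.Agent.S25.H747

open Fermat.Agent.S25

section

variable {k : Type u} [Field k]

/-- Base change of a localization `B → B'` away from `x` along `k → A`. -/
theorem isLocalization_away_tensor (A B B' : Type u) [CommRing A] [Algebra k A] [CommRing B]
    [CommRing B'] [Algebra k B] [Algebra k B'] [Algebra B B'] [IsScalarTower k B B']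
    (x : B) [IsLocalization.Away x B'] :
    IsLocalization.Away ((1 : A) ⊗ₜ[k] x) (A ⊗[k] B') := by
  have h := IsLocalization.tensorProduct_tensorProduct_right k A (Submonoid.powers x) B'
    (by ext; simp [RingHom.algebraMap_toAlgebra, tensorMapRight])
  have e : (Submonoid.powers x).map (Algebra.TensorProduct.includeRight (R := k) (A := A)) =
      Submonoid.powers ((1 : A) ⊗ₜ[k] x) := by
    rw [Submonoid.map_powers]
    rfl
  rw [e] at h
  exact h

theorem algebraMap_tensor_apply (A B B' : Type u) [CommRing A] [Algebra k A] [CommRing B]
    [CommRing B'] [Algebra k B] [Algebra k B'] [Algebra B B'] [IsScalarTower k B B']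
    (a : A) (b : B) :
    algebraMap (A ⊗[k] B) (A ⊗[k] B') (a ⊗ₜ[k] b) = a ⊗ₜ[k] algebraMap B B' b := by
  simp [RingHom.algebraMap_toAlgebra, tensorMapRight]

/-- Base change along `k → A` preserves injectivity of `B → B'` (`k` is a field). -/
theorem algebraMap_tensor_injective (A B B' : Type u) [CommRing A] [Algebra k A] [CommRing B]
    [CommRing B'] [Algebra k B] [Algebra k B'] [Algebra B B'] [IsScalarTower k B B']
    (h : Function.Injective (algebraMap B B')) :
    Function.Injective (algebraMap (A ⊗[k] B) (A ⊗[k] B')) := by
  have : (algebraMap (A ⊗[k] B) (A ⊗[k] B') : A ⊗[k] B → A ⊗[k] B') =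
      (LinearMap.lTensor A (IsScalarTower.toAlgHom k B B').toLinearMap) := by
    ext z
    induction z using TensorProduct.induction_on with
    | zero => simp
    | add a b ha hb => simp only [map_add, ha, hb]
    | tmul a b => simp [algebraMap_tensor_apply]
  rw [this]
  exact Module.Flat.lTensor_preserves_injective_linearMap _ h

end

end Fermat.Agent.S25.H747
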