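/-
S25 / block ABEL, sub-block AB-ALG (helper747), leaves C6 + AA3: chart points that are `Same`
have the same ideals; hence the Abel datum does not depend on the choice of charts.
-/
import Fermat.Agent.S25.H747.CurveCospan

set_option autoImplicit false
universe u
open scoped TensorProduct

namespace Fermat.Agent.S25.H747

open Fermat.Agent.S25

section

variable {k : Type u} [Field k]
  {B₀ B₁ B₀₁ : Type u} [CommRing B₀] [CommRing B₁] [CommRing B₀₁]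
  [Algebra k B₀] [Algebra k B₁] [Algebra k B₀₁] [Algebra B₀ B₀₁] [Algebra B₁ B₀₁]
  [IsScalarTower k B₀ B₀₁] [IsScalarTower k B₁ B₀₁]
  {A : Type u} [CommRing A] [Algebra k A]

/-- The graph ideal of a composite is the contraction of the graph ideal. -/
theorem graphIdeal_comp {B B' : Type u} [CommRing B] [CommRing B'] [Algebra k B] [Algebra k B']
    [Algebra B B'] [IsScalarTower k B B'] (φ : B' →ₐ[k] A) :
    graphIdeal (φ.comp (IsScalarTower.toAlgHom k B B')) =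
      (graphIdeal φ).comap (algebraMap (A ⊗[k] B) (A ⊗[k] B')) := by
  have h : (evalHom (φ.comp (IsScalarTower.toAlgHom k B B')) : A ⊗[k] B →ₐ[A] A).toRingHom =
      (evalHom φ).toRingHom.comp (algebraMap (A ⊗[k] B) (A ⊗[k] B')) := by
    ext <;> simp [RingHom.algebraMap_toAlgebra, tensorMapRight]
  ext z
  have hz := DFunLike.congr_fun h z
  simp only [graphIdeal, RingHom.mem_ker, Ideal.mem_comap]
  change (evalHom _).toRingHom z = 0 ↔ _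
  rw [hz]
  rfl

/-- The general form of the Abel datum as a function of the six ideals. -/
noncomputable def abelDatumOfIdeals (A : Type u) [CommRing A] [Algebra k A]
    (I₀ : Ideal (A ⊗[k] B₀)) (I₁ : Ideal (A ⊗[k] B₁)) (I₀₁ : Ideal (A ⊗[k] B₀₁))
    (E₀ : Ideal (A ⊗[k] B₀)) (E₁ : Ideal (A ⊗[k] B₁)) (E₀₁ : Ideal (A ⊗[k] B₀₁)) :
    CurveGD k B₀ B₁ B₀₁ A :=
  open Classical in
  if h : IsCartierTriple I₀ I₁ I₀₁ ∧ IsCartierTriple E₀ E₁ E₀₁ then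
    homDatum (ofIdeals A h.1) (ofIdeals A h.2)
  else GlueDatum.unit A (A ⊗[k] B₀) (A ⊗[k] B₁) (A ⊗[k] B₀₁)

theorem abelDatum_eq_ofIdeals (e : B₁ →ₐ[k] k) (g : ℕ) (A : Type u) [CommRing A] [Algebra k A]
    (P : Fin g → H746.ChartPt k B₀ B₁ A) :
    abelDatum (B₀₁ := B₀₁) e g A P =
      abelDatumOfIdeals A (tupI₀ B₀₁ P) (tupI₁ B₀₁ P) (tupI₀₁ B₀₁ P)
        (tupI₀ B₀₁ (fun _ : Fin g => epsPt B₀ e A)) (tupI₁ B₀₁ (fun _ : Fin g => epsPt B₀ e A))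
        (tupI₀₁ B₀₁ (fun _ : Fin g => epsPt B₀ e A)) := rfl

variable {x : B₀} {y : B₁} {e : B₁ →ₐ[k] k}

/-- **C6.** Chart points that are `Same` have the same ideals. -/
theorem ptI_eq_of_same (hC : IsCurveChart k B₀ B₁ B₀₁ x y e)
    (P Q : H746.ChartPt k B₀ B₁ A) (h : H746.ChartPt.Same B₀₁ P Q) :
    ptI₀ B₀₁ P = ptI₀ B₀₁ Q ∧ ptI₁ B₀₁ P = ptI₁ B₀₁ Q ∧ ptI₀₁ B₀₁ P = ptI₀₁ B₀₁ Q := by
  have := hC.away₀
  have := hC.away₁
  have := isLocalization_away_tensor (k := k) A B₀ B₀₁ x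
  have := isLocalization_away_tensor (k := k) A B₁ B₀₁ y
  have key : ∀ φ : B₀₁ →ₐ[k] A,
      ptI₀ B₀₁ (Sum.inl (φ.comp (IsScalarTower.toAlgHom k B₀ B₀₁)) : H746.ChartPt k B₀ B₁ A) =
        ptI₀ B₀₁ (Sum.inr (φ.comp (IsScalarTower.toAlgHom k B₁ B₀₁)) :
          H746.ChartPt k B₀ B₁ A) ∧
      ptI₁ B₀₁ (Sum.inl (φ.comp (IsScalarTower.toAlgHom k B₀ B₀₁)) : H746.ChartPt k B₀ B₁ A) =
        ptI₁ B₀₁ (Sum.inr (φ.comp (IsScalarTower.toAlgHom k B₁ B₀₁)) :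
          H746.ChartPt k B₀ B₁ A) ∧
      ptI₀₁ B₀₁ (Sum.inl (φ.comp (IsScalarTower.toAlgHom k B₀ B₀₁)) : H746.ChartPt k B₀ B₁ A) =
        ptI₀₁ B₀₁ (Sum.inr (φ.comp (IsScalarTower.toAlgHom k B₁ B₀₁)) :
          H746.ChartPt k B₀ B₁ A) := by
    intro φ
    have m₀ : ((graphIdeal φ).comap (algebraMap (A ⊗[k] B₀) (A ⊗[k] B₀₁))).map
        (algebraMap (A ⊗[k] B₀) (A ⊗[k] B₀₁)) = graphIdeal φ :=
      IsLocalization.map_under (Submonoid.powers ((1 : A) ⊗ₜ[k] x)) _ _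
    have m₁ : ((graphIdeal φ).comap (algebraMap (A ⊗[k] B₁) (A ⊗[k] B₀₁))).map
        (algebraMap (A ⊗[k] B₁) (A ⊗[k] B₀₁)) = graphIdeal φ :=
      IsLocalization.map_under (Submonoid.powers ((1 : A) ⊗ₜ[k] y)) _ _
    simp only [ptI₀, ptI₁, ptI₀₁, graphIdeal_comp, m₀, m₁, and_self]
  rcases h with rfl | ⟨φ, ⟨rfl, rfl⟩ | ⟨rfl, rfl⟩⟩
  · exact ⟨rfl, rfl, rfl⟩
  · exact key φ
  · obtain ⟨h₀, h₁, h₀₁⟩ := key φ
    exact ⟨h₀.symm, h₁.symm, h₀₁.symm⟩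

/-- Tuples of pairwise `Same` chart points have the same ideals. -/
theorem tupI_eq_of_same (hC : IsCurveChart k B₀ B₁ B₀₁ x y e) {g : ℕ}
    (P Q : Fin g → H746.ChartPt k B₀ B₁ A) (h : ∀ i, H746.ChartPt.Same B₀₁ (P i) (Q i)) :
    tupI₀ B₀₁ P = tupI₀ B₀₁ Q ∧ tupI₁ B₀₁ P = tupI₁ B₀₁ Q ∧ tupI₀₁ B₀₁ P = tupI₀₁ B₀₁ Q :=
  ⟨Finset.prod_congr rfl fun i _ => (ptI_eq_of_same hC _ _ (h i)).1,
    Finset.prod_congr rfl fun i _ => (ptI_eq_of_same hC _ _ (h i)).2.1,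
    Finset.prod_congr rfl fun i _ => (ptI_eq_of_same hC _ _ (h i)).2.2⟩

/-- Reflexivity of `GlueDatum.IsIso`. -/
theorem glueDatum_isIso_refl {A R₀ R₁ R₀₁ : Type u} [CommRing A] [CommRing R₀] [CommRing R₁]
    [CommRing R₀₁] [Algebra A R₀] [Algebra A R₁] [Algebra A R₀₁] [Algebra R₀ R₀₁]
    [Algebra R₁ R₀₁] [IsScalarTower A R₀ R₀₁] [IsScalarTower A R₁ R₀₁]
    (G : GlueDatum A R₀ R₁ R₀₁) : G.IsIso G :=
  ⟨{ e₀ := LinearEquiv.refl _ _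
     e₁ := LinearEquiv.refl _ _
     e₀₁ := LinearEquiv.refl _ _
     comm₀ := fun _ => rfl
     comm₁ := fun _ => rfl }⟩

/-- **AA3.** Independence of the choice of charts. -/
theorem abelDatum_same (hC : IsCurveChart k B₀ B₁ B₀₁ x y e) (g : ℕ)
    (A : Type u) [CommRing A] [Algebra k A] (P Q : Fin g → H746.ChartPt k B₀ B₁ A)
    (h : ∀ i, H746.ChartPt.Same B₀₁ (P i) (Q i)) :
    (abelDatum (B₀₁ := B₀₁) e g A P).IsIso (abelDatum (B₀₁ := B₀₁) e g A Q) := by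
  obtain ⟨h₀, h₁, h₀₁⟩ := tupI_eq_of_same hC P Q h
  rw [abelDatum_eq_ofIdeals, abelDatum_eq_ofIdeals, h₀, h₁, h₀₁]
  exact glueDatum_isIso_refl _

end

end Fermat.Agent.S25.H747
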