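/-
S25 / block ABEL, sub-block AB-ALG (helper747), leaf G5: products of invertible ideals are
invertible; Cartier triples on a cospan of localizations; products of Cartier triples.
-/
import Fermat.Agent.S25.H747.GDHom

set_option autoImplicit false
universe u
open scoped TensorProduct

namespace Fermat.Agent.S25.H747

open Fermat.Agent.S25

section Mul

variable {R : Type u} [CommRing R]

/-- The multiplication map `I ⊗ J → R`. -/
noncomputable def idealMulMap (I J : Ideal R) : I ⊗[R] J →ₗ[R] R :=
  TensorProduct.lift ((LinearMap.mul R R).compl₁₂ I.subtype J.subtype)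

@[simp] theorem idealMulMap_tmul (I J : Ideal R) (a : I) (b : J) :
    idealMulMap I J (a ⊗ₜ[R] b) = (a : R) * (b : R) := by
  simp [idealMulMap]

theorem range_idealMulMap (I J : Ideal R) : LinearMap.range (idealMulMap I J) = I * J := by
  apply le_antisymm
  · rintro _ ⟨z, rfl⟩
    induction z using TensorProduct.induction_on with
    | zero => simp
    | tmul a b => simpa using Ideal.mul_mem_mul a.2 b.2
    | add z w hz hw => rw [map_add]; exact Ideal.add_mem _ hz hw
  · rw [Ideal.mul_le]
    intro a ha b hb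
    exact ⟨(⟨a, ha⟩ : I) ⊗ₜ[R] (⟨b, hb⟩ : J), by simp⟩

theorem idealMulMap_injective (I J : Ideal R) [Module.Flat R J] :
    Function.Injective (idealMulMap I J) := by
  have h1 : Function.Injective (LinearMap.rTensor J I.subtype) :=
    Module.Flat.rTensor_preserves_injective_linearMap _ I.subtype_injective
  have h2 : idealMulMap I J =
      (J.subtype ∘ₗ (TensorProduct.lid R J).toLinearMap) ∘ₗ LinearMap.rTensor J I.subtype := by
    ext a b
    simp
  rw [h2]
  exact (J.subtype_injective.comp (TensorProduct.lid R J).injective).comp h1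

/-- `I ⊗ J ≃ I * J` for a flat ideal `J`. -/
noncomputable def tensorEquivMul (I J : Ideal R) [Module.Flat R J] :
    I ⊗[R] J ≃ₗ[R] ↥(I * J) :=
  (LinearEquiv.ofInjective (idealMulMap I J) (idealMulMap_injective I J)).trans
    (LinearEquiv.ofEq _ _ (range_idealMulMap I J))

@[simp] theorem tensorEquivMul_tmul (I J : Ideal R) [Module.Flat R J] (a : I) (b : J) :
    ((tensorEquivMul I J (a ⊗ₜ[R] b) : ↥(I * J)) : R) = (a : R) * (b : R) := by
  simp [tensorEquivMul]

/-- The product of two invertible ideals is invertible. -/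
theorem invertible_mul (I J : Ideal R) [Module.Invertible R I] [Module.Invertible R J] :
    Module.Invertible R ↥(I * J) :=
  Module.Invertible.congr (tensorEquivMul I J)

/-- The unit ideal is invertible. -/
theorem invertible_top : Module.Invertible R (⊤ : Ideal R) :=
  Module.Invertible.congr (Submodule.topEquiv (R := R) (M := R)).symm

theorem invertible_one : Module.Invertible R (1 : Ideal R) := by
  rw [Ideal.one_eq_top]; exact invertible_top

end Mul

section Loc

variable {R S : Type u} [CommRing R] [CommRing S] [Algebra R S]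

/-- For a localization `R → S`, the restriction `I → I·S` is a base change. -/
theorem isBaseChange_idealRes_of_isLocalization (M : Submonoid R) [IsLocalization M S]
    (I : Ideal R) (J : Ideal S) (h : I.map (algebraMap R S) = J) :
    IsBaseChange S (idealRes I J h.le) := by
  subst h
  have h1 : IsLocalizedModule M (Algebra.idealMap S I) := inferInstance
  have h2 : IsBaseChange S (Algebra.idealMap S I) :=
    (isLocalizedModule_iff_isBaseChange M S _).mp h1
  exact h2

end Loc

section Triple

variable {R₀ R₁ R₀₁ : Type u} [CommRing R₀] [CommRing R₁] [CommRing R₀₁]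
  [Algebra R₀ R₀₁] [Algebra R₁ R₀₁]

/-- On a cospan of localizations, compatibility and invertibility suffice. -/
theorem IsCartierTriple.of_isLocalization (M₀ : Submonoid R₀) (M₁ : Submonoid R₁)
    [IsLocalization M₀ R₀₁] [IsLocalization M₁ R₀₁]
    {I₀ : Ideal R₀} {I₁ : Ideal R₁} {I₀₁ : Ideal R₀₁}
    (map₀ : I₀.map (algebraMap R₀ R₀₁) = I₀₁) (map₁ : I₁.map (algebraMap R₁ R₀₁) = I₀₁)
    (inv₀ : Module.Invertible R₀ I₀) (inv₁ : Module.Invertible R₁ I₁) :
    IsCartierTriple I₀ I₁ I₀₁ where
  map₀ := map₀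
  map₁ := map₁
  inv₀ := inv₀
  inv₁ := inv₁
  bc₀ := isBaseChange_idealRes_of_isLocalization M₀ I₀ I₀₁ map₀
  bc₁ := isBaseChange_idealRes_of_isLocalization M₁ I₁ I₀₁ map₁

/-- **G5.** Products of Cartier triples are Cartier triples (cospan of localizations). -/
theorem IsCartierTriple.mul (M₀ : Submonoid R₀) (M₁ : Submonoid R₁)
    [IsLocalization M₀ R₀₁] [IsLocalization M₁ R₀₁]
    {I₀ J₀ : Ideal R₀} {I₁ J₁ : Ideal R₁} {I₀₁ J₀₁ : Ideal R₀₁}
    (hI : IsCartierTriple I₀ I₁ I₀₁) (hJ : IsCartierTriple J₀ J₁ J₀₁) :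
    IsCartierTriple (I₀ * J₀) (I₁ * J₁) (I₀₁ * J₀₁) :=
  haveI := hI.inv₀
  haveI := hI.inv₁
  haveI := hJ.inv₀
  haveI := hJ.inv₁
  IsCartierTriple.of_isLocalization M₀ M₁
    (by rw [Ideal.map_mul, hI.map₀, hJ.map₀]) (by rw [Ideal.map_mul, hI.map₁, hJ.map₁])
    (invertible_mul I₀ J₀) (invertible_mul I₁ J₁)

/-- The trivial Cartier triple. -/
theorem IsCartierTriple.one (M₀ : Submonoid R₀) (M₁ : Submonoid R₁)
    [IsLocalization M₀ R₀₁] [IsLocalization M₁ R₀₁] :
    IsCartierTriple (1 : Ideal R₀) (1 : Ideal R₁) (1 : Ideal R₀₁) :=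
  IsCartierTriple.of_isLocalization M₀ M₁
    (by rw [Ideal.one_eq_top, Ideal.map_top, Ideal.one_eq_top])
    (by rw [Ideal.one_eq_top, Ideal.map_top, Ideal.one_eq_top])
    invertible_one invertible_one

/-- Finite products of Cartier triples are Cartier triples. -/
theorem IsCartierTriple.prod (M₀ : Submonoid R₀) (M₁ : Submonoid R₁)
    [IsLocalization M₀ R₀₁] [IsLocalization M₁ R₀₁] {ι : Type*} (s : Finset ι)
    (I₀ : ι → Ideal R₀) (I₁ : ι → Ideal R₁) (I₀₁ : ι → Ideal R₀₁)
    (h : ∀ i ∈ s, IsCartierTriple (I₀ i) (I₁ i) (I₀₁ i)) :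
    IsCartierTriple (∏ i ∈ s, I₀ i) (∏ i ∈ s, I₁ i) (∏ i ∈ s, I₀₁ i) := by
  classical
  induction s using Finset.induction_on with
  | empty => simpa using IsCartierTriple.one M₀ M₁
  | insert a s ha ih =>
    rw [Finset.prod_insert ha, Finset.prod_insert ha, Finset.prod_insert ha]
    exact IsCartierTriple.mul M₀ M₁ (h a (Finset.mem_insert_self a s))
      (ih fun i hi => h i (Finset.mem_insert_of_mem hi))

end Triple

end Fermat.Agent.S25.H747
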