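/-
S25 / block ABEL, sub-block AB-ALG (helper747), leaves C2, C3, AA1: graph ideals are
invertible, a chart point defines a Cartier triple, every tuple of chart points defines an
effective Cartier divisor.
-/
import Fermat.Agent.S25.H747.CartierMul
import Fermat.Agent.S25.H747.CurveCospan
import Fermat.Agent.S25.H207.TensorDomain
import Fermat.Agent.S25.H431.Diagonal
import Fermat.Agent.S25.H611.HilbSkelH3
import Fermat.Agent.S25.H851.Contraction

set_option autoImplicit false
universe u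
open scoped TensorProduct

namespace Fermat.Agent.S25.H747

open Fermat.Agent.S25

section NeZero

variable {k : Type u} [Field k] [IsAlgClosed k] {B : Type u} [CommRing B] [IsDomain B]
  [Algebra k B]

/-- The coordinate of a curve chart is not zero: otherwise `B` would be finite over `k`,
hence equal to `k`, and `Ω[B⁄k]` would vanish. -/
theorem ne_zero_of_finite_of_invertible (x : B)
    (hfin : (Polynomial.aeval x : Polynomial k →ₐ[k] B).Finite)
    [Module.Invertible B Ω[B⁄k]] : x ≠ 0 := by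
  rintro rfl
  have hint : (Polynomial.aeval (0 : B) : Polynomial k →ₐ[k] B).toRingHom.IsIntegral :=
    RingHom.Finite.to_isIntegral hfin
  have hcomp : (Polynomial.aeval (0 : B) : Polynomial k →ₐ[k] B).toRingHom =
      (algebraMap k B).comp (Polynomial.evalRingHom (0 : k)) := by
    ext <;> simp
  rw [hcomp] at hint
  have hint' : (algebraMap k B).IsIntegral := RingHom.IsIntegral.tower_top _ _ hint
  have : Algebra.IsIntegral k B := Algebra.isIntegral_def.mpr hint'
  have hbij : Function.Bijective (algebraMap k B) :=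
    IsAlgClosed.algebraMap_bijective_of_isIntegral
  have hsub : Subsingleton Ω[B⁄k] := KaehlerDifferential.subsingleton_of_surjective k B hbij.2
  have hfaith : FaithfulSMul B Ω[B⁄k] := inferInstance
  have h01 : (1 : B) = 0 := hfaith.eq_of_smul_eq_smul fun m => Subsingleton.elim _ _
  exact one_ne_zero h01

end NeZero

section Curve

variable {k : Type u} [Field k] [IsAlgClosed k]
  {B₀ B₁ B₀₁ : Type u} [CommRing B₀] [CommRing B₁] [CommRing B₀₁]
  [Algebra k B₀] [Algebra k B₁] [Algebra k B₀₁] [Algebra B₀ B₀₁] [Algebra B₁ B₀₁]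
  [IsScalarTower k B₀ B₀₁] [IsScalarTower k B₁ B₀₁]
  {x : B₀} {y : B₁} {e : B₁ →ₐ[k] k}

theorem chart_x_ne_zero (hC : IsCurveChart k B₀ B₁ B₀₁ x y e) : x ≠ 0 :=
  haveI := hC.isDomain₀
  haveI := hC.omega₀
  ne_zero_of_finite_of_invertible x hC.finite₀

theorem chart_y_ne_zero (hC : IsCurveChart k B₀ B₁ B₀₁ x y e) : y ≠ 0 :=
  haveI := hC.isDomain₁
  haveI := hC.omega₁
  ne_zero_of_finite_of_invertible y hC.finite₁

theorem chart_injective₀ (hC : IsCurveChart k B₀ B₁ B₀₁ x y e) :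
    Function.Injective (algebraMap B₀ B₀₁) :=
  haveI := hC.isDomain₀
  haveI := hC.away₀
  IsLocalization.injective B₀₁ (M := Submonoid.powers x)
    (powers_le_nonZeroDivisors_of_noZeroDivisors (chart_x_ne_zero hC))

theorem chart_injective₁ (hC : IsCurveChart k B₀ B₁ B₀₁ x y e) :
    Function.Injective (algebraMap B₁ B₀₁) :=
  haveI := hC.isDomain₁
  haveI := hC.away₁
  IsLocalization.injective B₀₁ (M := Submonoid.powers y)
    (powers_le_nonZeroDivisors_of_noZeroDivisors (chart_y_ne_zero hC))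

end Curve

section Graph

variable {k : Type u} [Field k] {A : Type u} [CommRing A] [Algebra k A]
  {B : Type u} [CommRing B] [Algebra k B]

theorem evalHom_surjective (φ : B →ₐ[k] A) : Function.Surjective (evalHom φ) :=
  fun a => ⟨a ⊗ₜ[k] 1, by simp⟩

/-- `(A ⊗ B) ⧸ graphIdeal φ ≃ A`. -/
noncomputable def quotGraphIdealEquiv (φ : B →ₐ[k] A) :
    ((A ⊗[k] B) ⧸ graphIdeal φ) ≃ₐ[A] A :=
  Ideal.quotientKerAlgEquivOfSurjective (evalHom_surjective φ)

instance finite_quot_graphIdeal (φ : B →ₐ[k] A) :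
    Module.Finite A ((A ⊗[k] B) ⧸ graphIdeal φ) :=
  Module.Finite.equiv (quotGraphIdealEquiv φ).symm.toLinearEquiv

instance projective_quot_graphIdeal (φ : B →ₐ[k] A) :
    Module.Projective A ((A ⊗[k] B) ⧸ graphIdeal φ) :=
  Module.Projective.of_equiv (quotGraphIdealEquiv φ).symm.toLinearEquiv

/-- **C2.** Graph ideals are invertible. -/
theorem graphIdeal_invertible [IsAlgClosed k] [IsDomain B] [Algebra.EssFiniteType k B]
    [Module.Invertible B Ω[B⁄k]] (φ : B →ₐ[k] A) :
    Module.Invertible (A ⊗[k] B) (graphIdeal φ) := by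
  haveI : IsDomain (B ⊗[k] B) := H207.isDomain_tensorProduct
  haveI : Module.Invertible (B ⊗[k] B) (KaehlerDifferential.ideal k B) :=
    H431.diagonal_invertible k B
  exact H611.invertible_ideal_of_quotient_finite_projective_tensor k A B (graphIdeal φ)

end Graph

section Pt

variable {k : Type u} [Field k] [IsAlgClosed k]
  {B₀ B₁ B₀₁ : Type u} [CommRing B₀] [CommRing B₁] [CommRing B₀₁]
  [Algebra k B₀] [Algebra k B₁] [Algebra k B₀₁] [Algebra B₀ B₀₁] [Algebra B₁ B₀₁]
  [IsScalarTower k B₀ B₀₁] [IsScalarTower k B₁ B₀₁]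
  {x : B₀} {y : B₁} {e : B₁ →ₐ[k] k}

theorem chart_essFiniteType₀ (hC : IsCurveChart k B₀ B₁ B₀₁ x y e) :
    Algebra.EssFiniteType k B₀ :=
  haveI := hC.smooth₀
  inferInstance

theorem chart_essFiniteType₁ (hC : IsCurveChart k B₀ B₁ B₀₁ x y e) :
    Algebra.EssFiniteType k B₁ :=
  haveI := hC.smooth₁
  inferInstance

theorem chart_mul_eq_one (hC : IsCurveChart k B₀ B₁ B₀₁ x y e)
    (A : Type u) [CommRing A] [Algebra k A] :
    algebraMap (A ⊗[k] B₀) (A ⊗[k] B₀₁) ((1 : A) ⊗ₜ[k] x) *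
      algebraMap (A ⊗[k] B₁) (A ⊗[k] B₀₁) ((1 : A) ⊗ₜ[k] y) = 1 := by
  rw [algebraMap_tensor_apply, algebraMap_tensor_apply, Algebra.TensorProduct.tmul_mul_tmul,
    hC.mul_eq_one, mul_one]
  rfl

theorem chart_mul_eq_one' (hC : IsCurveChart k B₀ B₁ B₀₁ x y e)
    (A : Type u) [CommRing A] [Algebra k A] :
    algebraMap (A ⊗[k] B₁) (A ⊗[k] B₀₁) ((1 : A) ⊗ₜ[k] y) *
      algebraMap (A ⊗[k] B₀) (A ⊗[k] B₀₁) ((1 : A) ⊗ₜ[k] x) = 1 := by
  rw [mul_comm]; exact chart_mul_eq_one hC A

/-- **C3.** A single chart point defines a Cartier triple. -/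
theorem ptCartier (hC : IsCurveChart k B₀ B₁ B₀₁ x y e)
    (A : Type u) [CommRing A] [Algebra k A] (P : H746.ChartPt k B₀ B₁ A) :
    IsCartierTriple (ptI₀ B₀₁ P) (ptI₁ B₀₁ P) (ptI₀₁ B₀₁ P) := by
  have := hC.away₀
  have := hC.away₁
  have := hC.isDomain₀
  have := hC.isDomain₁
  have := hC.omega₀
  have := hC.omega₁
  have := chart_essFiniteType₀ hC
  have := chart_essFiniteType₁ hC
  have l₀ := isLocalization_away_tensor (k := k) A B₀ B₀₁ x
  have l₁ := isLocalization_away_tensor (k := k) A B₁ B₀₁ y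
  have i₀ := algebraMap_tensor_injective (k := k) A B₀ B₀₁ (chart_injective₀ hC)
  have i₁ := algebraMap_tensor_injective (k := k) A B₁ B₀₁ (chart_injective₁ hC)
  rcases P with φ | φ
  · have inv : Module.Invertible (A ⊗[k] B₀) (graphIdeal φ) := graphIdeal_invertible φ
    refine IsCartierTriple.of_isLocalization (Submonoid.powers ((1 : A) ⊗ₜ[k] x))
      (Submonoid.powers ((1 : A) ⊗ₜ[k] y)) rfl ?_ inv ?_
    · exact H851.map_contr ((1 : A) ⊗ₜ[k] y) (graphIdeal φ)
    · exact H851.contr_invertible (A := A) ((1 : A) ⊗ₜ[k] x) ((1 : A) ⊗ₜ[k] y)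
        (chart_mul_eq_one hC A) i₁ (graphIdeal φ)
  · have inv : Module.Invertible (A ⊗[k] B₁) (graphIdeal φ) := graphIdeal_invertible φ
    refine IsCartierTriple.of_isLocalization (Submonoid.powers ((1 : A) ⊗ₜ[k] x))
      (Submonoid.powers ((1 : A) ⊗ₜ[k] y)) ?_ rfl ?_ inv
    · exact H851.map_contr ((1 : A) ⊗ₜ[k] x) (graphIdeal φ)
    · exact H851.contr_invertible (A := A) ((1 : A) ⊗ₜ[k] y) ((1 : A) ⊗ₜ[k] x)
        (chart_mul_eq_one' hC A) i₀ (graphIdeal φ)

/-- **AA1.** Every tuple of chart points defines an effective Cartier divisor. -/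
theorem tupCartier (hC : IsCurveChart k B₀ B₁ B₀₁ x y e) (A : Type u) [CommRing A] [Algebra k A]
    {g : ℕ} (P : Fin g → H746.ChartPt k B₀ B₁ A) : TupCartier (B₀₁ := B₀₁) P := by
  have := hC.away₀
  have := hC.away₁
  have l₀ := isLocalization_away_tensor (k := k) A B₀ B₀₁ x
  have l₁ := isLocalization_away_tensor (k := k) A B₁ B₀₁ y
  exact IsCartierTriple.prod (Submonoid.powers ((1 : A) ⊗ₜ[k] x))
    (Submonoid.powers ((1 : A) ⊗ₜ[k] y)) Finset.univ _ _ _ fun i _ => ptCartier hC A (P i)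

end Pt

end Fermat.Agent.S25.H747
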