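/-
S25 / block ABEL, sub-block AB-ALG (helper747), leaf G1: `ℋom(G, G) ≅ O` for gluing data.
-/
import Fermat.Agent.S25.H747.GDHom

set_option autoImplicit false
universe u
open scoped TensorProduct

namespace Fermat.Agent.S25.H747

open Fermat.Agent.S25

noncomputable section

/-- For an invertible module, `r ↦ r • id` is a linear equivalence `R ≃ End M`. -/
def lsmulEquiv (R : Type u) [CommRing R] (M : Type u) [AddCommGroup M] [Module R M]
    [Module.Invertible R M] : R ≃ₗ[R] (M →ₗ[R] M) :=
  LinearEquiv.ofBijective (LinearMap.lsmul R M) (by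
    have h := Module.Invertible.toModuleEnd_bijective R M
    have e : (LinearMap.lsmul R M : R → (M →ₗ[R] M)) = Module.toModuleEnd R (S := R) M := by
      ext r m; rfl
    rw [e]; exact h)

@[simp] theorem lsmulEquiv_apply (R : Type u) [CommRing R] (M : Type u) [AddCommGroup M]
    [Module R M] [Module.Invertible R M] (r : R) (m : M) : lsmulEquiv R M r m = r • m := rfl

variable {A R₀ R₁ R₀₁ : Type u} [CommRing A] [CommRing R₀] [CommRing R₁]
    [CommRing R₀₁] [Algebra A R₀] [Algebra A R₁] [Algebra A R₀₁] [Algebra R₀ R₀₁]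
    [Algebra R₁ R₀₁] [IsScalarTower A R₀ R₀₁] [IsScalarTower A R₁ R₀₁]

/-- The base change of an invertible module is invertible. -/
theorem invertible_of_isBaseChange {R S : Type u} [CommRing R] [CommRing S] [Algebra R S]
    {M N : Type u} [AddCommGroup M] [Module R M] [AddCommGroup N] [Module R N] [Module S N]
    [IsScalarTower R S N] [Module.Invertible R M] {f : M →ₗ[R] N} (hf : IsBaseChange S f) :
    Module.Invertible S N :=
  Module.Invertible.congr hf.equiv

/-- The module of sections over the intersection of a gluing datum is invertible. -/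
theorem GlueDatum_invertible₀₁ (G : GlueDatum A R₀ R₁ R₀₁) : Module.Invertible R₀₁ G.N₀₁ :=
  haveI := G.invertible₀
  invertible_of_isBaseChange G.isBaseChange₀

/-- Restriction of a homothety is the homothety by the image. -/
theorem linearMapLeftRightHom_lsmul {R S : Type u} [CommRing R] [CommRing S] [Algebra R S]
    {M N : Type u} [AddCommGroup M] [Module R M] [AddCommGroup N] [Module R N] [Module S N]
    [IsScalarTower R S N] {f : M →ₗ[R] N} (hf : IsBaseChange S f) (r : R) :
    IsBaseChange.linearMapLeftRightHom hf f (LinearMap.lsmul R M r) =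
      LinearMap.lsmul S N (algebraMap R S r) := by
  apply hf.algHom_ext
  intro m
  rw [IsBaseChange.linearMapLeftRightHom_comp_apply]
  simp

/-- **G1.** `ℋom(G, G) ≅ O`. -/
theorem homDatum_self_isIso (G : GlueDatum A R₀ R₁ R₀₁) :
    (homDatum G G).IsIso (GlueDatum.unit A R₀ R₁ R₀₁) := by
  haveI := G.invertible₀
  haveI := G.invertible₁
  haveI := GlueDatum_invertible₀₁ G
  refine ⟨{ e₀ := (lsmulEquiv R₀ G.N₀).symm
            e₁ := (lsmulEquiv R₁ G.N₁).symm
            e₀₁ := (lsmulEquiv R₀₁ G.N₀₁).symm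
            comm₀ := ?_
            comm₁ := ?_ }⟩
  · intro s
    obtain ⟨r, rfl⟩ := (lsmulEquiv R₀ G.N₀).surjective s
    change (lsmulEquiv R₀₁ G.N₀₁).symm (IsBaseChange.linearMapLeftRightHom G.isBaseChange₀ G.r₀
      (lsmulEquiv R₀ G.N₀ r)) = algebraMap R₀ R₀₁ ((lsmulEquiv R₀ G.N₀).symm (lsmulEquiv R₀ G.N₀ r))
    rw [LinearEquiv.symm_apply_apply, LinearEquiv.symm_apply_eq]
    exact linearMapLeftRightHom_lsmul G.isBaseChange₀ r
  · intro s
    obtain ⟨r, rfl⟩ := (lsmulEquiv R₁ G.N₁).surjective s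
    change (lsmulEquiv R₀₁ G.N₀₁).symm (IsBaseChange.linearMapLeftRightHom G.isBaseChange₁ G.r₁
      (lsmulEquiv R₁ G.N₁ r)) = algebraMap R₁ R₀₁ ((lsmulEquiv R₁ G.N₁).symm (lsmulEquiv R₁ G.N₁ r))
    rw [LinearEquiv.symm_apply_apply, LinearEquiv.symm_apply_eq]
    exact linearMapLeftRightHom_lsmul G.isBaseChange₁ r

end

end Fermat.Agent.S25.H747
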