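/-
S25 / block ABEL, sub-block AB-ALG (helper747), leaf AA5: the Abel datum of the tuple
`(ε, …, ε)` is trivial.
-/
import Fermat.Agent.S25.H747.AbCartier
import Fermat.Agent.S25.H747.HomSelf

set_option autoImplicit false
universe u
open scoped TensorProduct

namespace Fermat.Agent.S25.H747

open Fermat.Agent.S25

section

variable {k : Type u} [Field k] [IsAlgClosed k]
  {B₀ B₁ B₀₁ : Type u} [CommRing B₀] [CommRing B₁] [CommRing B₀₁]
  [Algebra k B₀] [Algebra k B₁] [Algebra k B₀₁] [Algebra B₀ B₀₁] [Algebra B₁ B₀₁]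
  [IsScalarTower k B₀ B₀₁] [IsScalarTower k B₁ B₀₁]
  {x : B₀} {y : B₁} {e : B₁ →ₐ[k] k}

omit [IsAlgClosed k] [Algebra k B₀₁] [Algebra B₀ B₀₁] [Algebra B₁ B₀₁] [IsScalarTower k B₀ B₀₁]
  [IsScalarTower k B₁ B₀₁] [CommRing B₀₁] in
theorem epsPt_self (e : B₁ →ₐ[k] k) :
    epsPt B₀ e k = (Sum.inr e : H746.ChartPt k B₀ B₁ k) := by
  unfold epsPt
  congr 1

/-- The Abel datum in terms of `homDatum`, for a curve chart. -/
theorem abelDatum_eq_homDatum (hC : IsCurveChart k B₀ B₁ B₀₁ x y e) (g : ℕ)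
    (A : Type u) [CommRing A] [Algebra k A] (P : Fin g → H746.ChartPt k B₀ B₁ A) :
    abelDatum (B₀₁ := B₀₁) e g A P =
      homDatum (ofIdeals A (tupCartier hC A P))
        (ofIdeals A (tupCartier hC A (fun _ : Fin g => epsPt B₀ e A))) :=
  abelDatum_eq e g A P _ _

/-- **AA5.** At the tuple `(ε, …, ε)` the datum is trivial. -/
theorem abelDatum_triv (hC : IsCurveChart k B₀ B₁ B₀₁ x y e) (g : ℕ) :
    (abelDatum (B₀₁ := B₀₁) e g k (fun _ => (Sum.inr e : H746.ChartPt k B₀ B₁ k))).IsIso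
      (GlueDatum.unit k (k ⊗[k] B₀) (k ⊗[k] B₁) (k ⊗[k] B₀₁)) := by
  have he : (fun _ : Fin g => (Sum.inr e : H746.ChartPt k B₀ B₁ k)) =
      fun _ => epsPt B₀ e k := by
    funext i
    exact (epsPt_self e).symm
  rw [he, abelDatum_eq_homDatum hC]
  exact homDatum_self_isIso _

end

end Fermat.Agent.S25.H747
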