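/-
S25 / block ABEL, sub-block AB-ALG (helper747): TOP.  `Stmt.AlgAbel` from the three remaining
leaves AA2 (base change), AA4 (local rigidifiability), AA6 (surjectivity), taken as explicit
hypotheses in their exact skeleton form; AA1, AA3, AA5 are proved in this directory.
-/
import Fermat.Agent.S25.H747.AbSame
import Fermat.Agent.S25.H747.AbTriv

set_option autoImplicit false
universe u
open scoped TensorProduct

namespace Fermat.Agent.S25.H747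

open Fermat.Agent.S25

section

variable (k : Type u) [Field k] [IsAlgClosed k]
  (B₀ B₁ B₀₁ : Type u) [CommRing B₀] [CommRing B₁] [CommRing B₀₁]
  [Algebra k B₀] [Algebra k B₁] [Algebra k B₀₁] [Algebra B₀ B₀₁] [Algebra B₁ B₀₁]
  [IsScalarTower k B₀ B₀₁] [IsScalarTower k B₁ B₀₁]

/-- Leaf **AA2** as a statement. -/
def StmtAA2 : Prop :=
  ∀ (x : B₀) (y : B₁) (e : B₁ →ₐ[k] k), IsCurveChart k B₀ B₁ B₀₁ x y e → ∀ (g : ℕ)
    (A A' : Type u) [CommRing A] [Algebra k A] [CommRing A'] [Algebra k A']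
    (ψ : A →ₐ[k] A') (P : Fin g → H746.ChartPt k B₀ B₁ A),
    CurveGD.IsBC ψ (abelDatum (B₀₁ := B₀₁) e g A P)
      (abelDatum (B₀₁ := B₀₁) e g A' (fun i => (P i).map ψ))

/-- Leaf **AA4** as a statement. -/
def StmtAA4 : Prop :=
  ∀ (x : B₀) (y : B₁) (e : B₁ →ₐ[k] k), IsCurveChart k B₀ B₁ B₀₁ x y e → ∀ (g : ℕ)
    (A : Type u) [CommRing A] [Algebra k A] (P : Fin g → H746.ChartPt k B₀ B₁ A)
    (𝔭 : Ideal A), 𝔭.IsPrime → ∃ f : A, f ∉ 𝔭 ∧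
      ∀ (A' : Type u) [CommRing A'] [Algebra k A'] (ψ : A →ₐ[k] A'), IsUnit (ψ f) →
        (abelDatum (B₀₁ := B₀₁) e g A' (fun i => (P i).map ψ)).Rigidifiable e

/-- Leaf **AA6** as a statement. -/
def StmtAA6 : Prop :=
  ∀ (x : B₀) (y : B₁) (e : B₁ →ₐ[k] k), IsCurveChart k B₀ B₁ B₀₁ x y e →
    ∀ (K : Type u) [Field K] [IsAlgClosed K] [Algebra k K] (G : CurveGD k B₀ B₁ B₀₁ K),
      G.Deg0 → ∃ P : Fin (genus k B₀ B₁ B₀₁) → H746.ChartPt k B₀ B₁ K,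
        G.IsIso (abelDatum (B₀₁ := B₀₁) e (genus k B₀ B₁ B₀₁) K P)

variable {k B₀ B₁ B₀₁}

/-- **TOP.** `Stmt.AlgAbel` from the leaves AA2, AA4, AA6. -/
theorem algAbel_of_leaves (h2 : StmtAA2 k B₀ B₁ B₀₁) (h4 : StmtAA4 k B₀ B₁ B₀₁)
    (h6 : StmtAA6 k B₀ B₁ B₀₁) : H746.Stmt.AlgAbel k B₀ B₁ B₀₁ := by
  intro x y e hC
  exact ⟨{
    g := genus k B₀ B₁ B₀₁
    F := fun A _ _ P => abelDatum (B₀₁ := B₀₁) e (genus k B₀ B₁ B₀₁) A P
    bc := fun A A' _ _ _ _ ψ P => h2 x y e hC _ A A' ψ P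
    same := fun A _ _ P Q h => abelDatum_same hC _ A P Q h
    locRig := fun A _ _ P 𝔭 h𝔭 => h4 x y e hC _ A P 𝔭 h𝔭
    triv := abelDatum_triv hC _
    surj := fun K _ _ _ G hG => h6 x y e hC K G hG }⟩

end

end Fermat.Agent.S25.H747
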