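/-
S25 / block ABEL, sub-block AB-ALG (helper747): `Stmt.AlgAbel` from the single remaining leaf
AA6 (surjectivity).  AA2 is `H927.abelDatum_isBC`, AA4 is `H266.abelDatum_locRig_of_isBC`
(from AA2); AA1, AA3, AA5 are in this directory.
-/
import Fermat.Agent.S25.H747.AlgAbelTop
import Fermat.Agent.S25.H927.AbAlgAA2
import Fermat.Agent.S25.H266.AbLocRig

set_option autoImplicit false
universe u
open scoped TensorProduct

namespace Fermat.Agent.S25.H747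

open Fermat.Agent.S25

variable {k : Type u} [Field k] [IsAlgClosed k]
  {B₀ B₁ B₀₁ : Type u} [CommRing B₀] [CommRing B₁] [CommRing B₀₁]
  [Algebra k B₀] [Algebra k B₁] [Algebra k B₀₁] [Algebra B₀ B₀₁] [Algebra B₁ B₀₁]
  [IsScalarTower k B₀ B₀₁] [IsScalarTower k B₁ B₀₁]
  {x : B₀} {y : B₁} {e : B₁ →ₐ[k] k}

/-- **AA2** (helper927), restated in this namespace. -/
theorem abelDatum_isBC (hC : IsCurveChart k B₀ B₁ B₀₁ x y e) (g : ℕ)
    (A A' : Type u) [CommRing A] [Algebra k A] [CommRing A'] [Algebra k A']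
    (ψ : A →ₐ[k] A') (P : Fin g → H746.ChartPt k B₀ B₁ A) :
    CurveGD.IsBC ψ (abelDatum (B₀₁ := B₀₁) e g A P)
      (abelDatum (B₀₁ := B₀₁) e g A' (fun i => (P i).map ψ)) :=
  H927.abelDatum_isBC hC g A A' ψ P

/-- **AA4** (helper266 + AA2): Zariski-locally on `Spec A` the datum is rigidifiable. -/
theorem abelDatum_locRig (hC : IsCurveChart k B₀ B₁ B₀₁ x y e) (g : ℕ)
    (A : Type u) [CommRing A] [Algebra k A] (P : Fin g → H746.ChartPt k B₀ B₁ A)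
    (𝔭 : Ideal A) (h𝔭 : 𝔭.IsPrime) : ∃ f : A, f ∉ 𝔭 ∧
      ∀ (A' : Type u) [CommRing A'] [Algebra k A'] (ψ : A →ₐ[k] A'), IsUnit (ψ f) →
        (abelDatum (B₀₁ := B₀₁) e g A' (fun i => (P i).map ψ)).Rigidifiable e :=
  H266.abelDatum_locRig_of_isBC e g A P
    (fun A' _ _ ψ => H927.abelDatum_isBC hC g A A' ψ P) 𝔭 h𝔭

variable (k B₀ B₁ B₀₁) in
/-- Leaf AA2 in the form consumed by `algAbel_of_leaves`. -/
theorem stmtAA2 : StmtAA2 k B₀ B₁ B₀₁ :=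
  fun _ _ _ hC g A A' _ _ _ _ ψ P => abelDatum_isBC hC g A A' ψ P

variable (k B₀ B₁ B₀₁) in
/-- Leaf AA4 in the form consumed by `algAbel_of_leaves`. -/
theorem stmtAA4 : StmtAA4 k B₀ B₁ B₀₁ :=
  fun _ _ _ hC g A _ _ P 𝔭 h𝔭 => abelDatum_locRig hC g A P 𝔭 h𝔭

/-- **`Stmt.AlgAbel` from AA6 alone.** -/
theorem algAbel_of_surj (h6 : StmtAA6 k B₀ B₁ B₀₁) : H746.Stmt.AlgAbel k B₀ B₁ B₀₁ :=
  algAbel_of_leaves (stmtAA2 k B₀ B₁ B₀₁) (stmtAA4 k B₀ B₁ B₀₁) h6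

end Fermat.Agent.S25.H747
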