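/-
S25 (Jacobian) -- helper747 -- block CURVE, leaf C1-SCHEME: the scheme -> algebra bridge.

For `c : C ⟶ Spec k` proper, smooth of relative dimension 1, `C` integral, `k` a field:
sections over affine opens are finitely generated noetherian domains, smooth over `k`,
locally standard smooth of relative dimension one, and stalks are localizations.
-/
import Mathlib

set_option autoImplicit false
set_option linter.style.haveILetI false

universe u

open CategoryTheory CategoryTheory.Limits AlgebraicGeometry

noncomputable section

namespace Fermat.Agent.S25.H747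

variable {k : Type u} [Field k] {C : Scheme.{u}} (c : C ⟶ Spec (CommRingCat.of k))

theorem le_preimage_top (U : C.Opens) : U ≤ c ⁻¹ᵁ ⊤ := fun _ _ => trivial

/-- The structure map `k → Γ(C, U)` of a `k`-scheme. -/
def sectionMap (U : C.Opens) : k →+* Γ(C, U) :=
  (c.appLE ⊤ U (le_preimage_top c U)).hom.comp (Scheme.ΓSpecIso (CommRingCat.of k)).inv.hom

/-- `Γ(C, U)` as a `k`-algebra (not an instance; use `letI`). -/
abbrev sectionAlgebra (U : C.Opens) : Algebra k Γ(C, U) := (sectionMap c U).toAlgebra

theorem sectionMap_comp_ΓSpecIso (U : C.Opens) :
    (sectionMap c U).comp (Scheme.ΓSpecIso (CommRingCat.of k)).hom.hom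
      = (c.appLE ⊤ U (le_preimage_top c U)).hom := by
  ext x
  simp [sectionMap]

/-- The structure maps are compatible with restriction. -/
theorem sectionMap_map {U V : C.Opens} (h : V ≤ U) :
    (C.presheaf.map (homOfLE h).op).hom.comp (sectionMap c U) = sectionMap c V := by
  ext x
  simp only [sectionMap, RingHom.coe_comp, Function.comp_apply]
  rw [← CommRingCat.comp_apply, Scheme.Hom.appLE_map]

section FiniteType

variable [LocallyOfFiniteType c]
include c

/-- (C1) sections over affine opens are finitely generated `k`-algebras. -/
theorem sectionMap_finiteType {U : C.Opens} (hU : IsAffineOpen U) :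
    (sectionMap c U).FiniteType := by
  have h := c.finiteType_appLE (isAffineOpen_top (Spec (CommRingCat.of k))) hU
    (le_preimage_top c U)
  rw [sectionMap]
  exact RingHom.FiniteType.comp h
    (RingHom.FiniteType.of_surjective _
      (ConcreteCategory.bijective_of_isIso (Scheme.ΓSpecIso (CommRingCat.of k)).inv).2)

theorem algebra_finiteType {U : C.Opens} (hU : IsAffineOpen U) :
    @Algebra.FiniteType k Γ(C, U) _ _ (sectionAlgebra c U) := by
  letI := sectionAlgebra c U
  exact sectionMap_finiteType c hU

/-- (C1) `C` is locally noetherian. -/
theorem isLocallyNoetherian : IsLocallyNoetherian C :=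
  LocallyOfFiniteType.isLocallyNoetherian c

/-- (C1) sections over affine opens are noetherian rings. -/
theorem isNoetherianRing_section {U : C.Opens} (hU : IsAffineOpen U) :
    IsNoetherianRing Γ(C, U) := by
  haveI := isLocallyNoetherian c
  exact IsLocallyNoetherian.component_noetherian ⟨U, hU⟩

/-- (C1) `C` is a Jacobson space: closed points are dense in every closed subset. -/
theorem jacobsonSpace : JacobsonSpace C :=
  LocallyOfFiniteType.jacobsonSpace c

end FiniteType

/-- (C1) sections over nonempty opens of an integral scheme are domains. -/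
theorem isDomain_section [IsIntegral C] (U : C.Opens) (hU : (U : Set C).Nonempty) :
    IsDomain Γ(C, U) := by
  haveI : Nonempty U := hU.to_subtype
  infer_instance

section Smooth

/-- (C1) sections over affine opens are smooth `k`-algebras. -/
theorem sectionMap_smooth [Smooth c] {U : C.Opens} (hU : IsAffineOpen U) :
    (sectionMap c U).Smooth := by
  have h := c.smooth_appLE (isAffineOpen_top (Spec (CommRingCat.of k))) hU
    (le_preimage_top c U)
  rw [sectionMap]
  exact RingHom.Smooth.comp
    (RingHom.Smooth.of_bijective
      (ConcreteCategory.bijective_of_isIso (Scheme.ΓSpecIso (CommRingCat.of k)).inv)) h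

/-- `Spec k` has only one open containing a given point. -/
theorem opens_spec_field_eq_top (U : (Spec (CommRingCat.of k)).Opens)
    (y : Spec (CommRingCat.of k)) (hy : y ∈ U) : U = ⊤ := by
  haveI : Subsingleton (Spec (CommRingCat.of k)) :=
    inferInstanceAs (Subsingleton (PrimeSpectrum k))
  ext z
  simp only [TopologicalSpace.Opens.coe_top, Set.mem_univ, iff_true, SetLike.mem_coe]
  rwa [Subsingleton.elim z y]

/-- (C1) every point of `C` has an affine open neighbourhood which is standard smooth of
relative dimension one over `k`. -/
theorem exists_isStandardSmoothOfRelativeDimension [SmoothOfRelativeDimension 1 c] (x : C) :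
    ∃ V : C.Opens, IsAffineOpen V ∧ x ∈ V ∧
      (sectionMap c V).IsStandardSmoothOfRelativeDimension 1 := by
  obtain ⟨U', hU', V, hV, hxV, e, h⟩ :=
    SmoothOfRelativeDimension.exists_isStandardSmoothOfRelativeDimension (n := 1) (f := c) x
  obtain rfl : U' = ⊤ := opens_spec_field_eq_top U' (c x) (e hxV)
  refine ⟨V, hV, hxV, ?_⟩
  have h2 := RingHom.isStandardSmoothOfRelativeDimension_respectsIso.2 _
    (Scheme.ΓSpecIso (CommRingCat.of k)).symm.commRingCatIsoToRingEquiv h
  exact h2

/-- (C1) for EVERY affine open `U`, `k → Γ(C, U)` is locally (on principal opens of `U`)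
standard smooth of relative dimension one. -/
theorem sectionMap_locally_isStandardSmoothOfRelativeDimension [SmoothOfRelativeDimension 1 c]
    {U : C.Opens} (hU : IsAffineOpen U) :
    RingHom.Locally (RingHom.IsStandardSmoothOfRelativeDimension 1) (sectionMap c U) := by
  have h := HasRingHomProperty.appLE (P := @SmoothOfRelativeDimension 1) c inferInstance
    ⟨⊤, isAffineOpen_top (Spec (CommRingCat.of k))⟩ ⟨U, hU⟩ (le_preimage_top c U)
  exact (RingHom.locally_respectsIso RingHom.isStandardSmoothOfRelativeDimension_respectsIso).2 _
    (Scheme.ΓSpecIso (CommRingCat.of k)).symm.commRingCatIsoToRingEquiv h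

end Smooth

end Fermat.Agent.S25.H747
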