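/-
S25 / block CURVE, leaf S3 (helper747): maximal domain of regularity of a rational function
on an integral scheme, in sections form.  Mathlib only.
The valuation property of the local rings (leaf S2d) is taken as an explicit hypothesis
`hval`; everything else holds for every integral scheme.
-/
import Mathlib

set_option autoImplicit false

universe u

open CategoryTheory AlgebraicGeometry TopologicalSpace Opposite

namespace Fermat.Agent.S25.H747

variable {C : Scheme.{u}} [IsIntegral C]

/-- Two nonempty opens of an integral scheme meet. -/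
theorem nonempty_inf_of_nonempty (U W : C.Opens) [hU : Nonempty U] [hW : Nonempty W] :
    Nonempty (U ⊓ W : C.Opens) := by
  obtain ⟨⟨x, hx⟩⟩ := hU
  obtain ⟨⟨y, hy⟩⟩ := hW
  obtain ⟨z, hz⟩ := nonempty_preirreducible_inter U.isOpen W.isOpen ⟨x, hx⟩ ⟨y, hy⟩
  exact ⟨⟨z, hz⟩⟩

/-- `germToFunctionField` is compatible with restriction. -/
theorem germToFunctionField_map {U V : C.Opens} [Nonempty U] [Nonempty V] (h : U ≤ V)
    (t : Γ(C, V)) :
    C.germToFunctionField U (C.presheaf.map (homOfLE h).op t) = C.germToFunctionField V t :=
  C.presheaf.germ_res_apply (homOfLE h) _ _ t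

/-- Two sections with the same image in the function field agree on the intersection. -/
theorem map_eq_map_of_germToFunctionField_eq {U W : C.Opens} [Nonempty U] [Nonempty W]
    (s : Γ(C, U)) (t : Γ(C, W))
    (h : C.germToFunctionField U s = C.germToFunctionField W t) :
    C.presheaf.map (homOfLE (inf_le_left : U ⊓ W ≤ U)).op s =
      C.presheaf.map (homOfLE (inf_le_right : U ⊓ W ≤ W)).op t := by
  have := nonempty_inf_of_nonempty U W
  apply C.germToFunctionField_injective (U ⊓ W)
  rw [germToFunctionField_map, germToFunctionField_map, h]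

/-- Conversely, sections agreeing on the intersection have the same image in the function
field. -/
theorem germToFunctionField_eq_of_map_eq_map {U W : C.Opens} [Nonempty U] [Nonempty W]
    (s : Γ(C, U)) (t : Γ(C, W))
    (h : C.presheaf.map (homOfLE (inf_le_left : U ⊓ W ≤ U)).op s =
      C.presheaf.map (homOfLE (inf_le_right : U ⊓ W ≤ W)).op t) :
    C.germToFunctionField U s = C.germToFunctionField W t := by
  have := nonempty_inf_of_nonempty U W
  rw [← germToFunctionField_map (inf_le_left : U ⊓ W ≤ U), h, germToFunctionField_map]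

/-- The domain of regularity of a rational function `f`: the set of points `P` such that `f`
lies in the local ring at `P`. -/
def regularLocus (f : C.functionField) : C.Opens where
  carrier := {P | f ∈ Set.range (algebraMap (C.presheaf.stalk P) C.functionField)}
  is_open' := by
    rw [isOpen_iff_forall_mem_open]
    rintro P ⟨g, hg⟩
    obtain ⟨W, hPW, t, ht⟩ := C.presheaf.exists_germ_eq g
    have : Nonempty W := ⟨⟨P, hPW⟩⟩
    refine ⟨W, ?_, W.isOpen, hPW⟩
    intro Q hQ
    refine ⟨C.presheaf.germ W Q hQ t, ?_⟩
    rw [Scheme.algebraMap_germ_eq_germToFunctionField, ← hg, ← ht,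
      Scheme.algebraMap_germ_eq_germToFunctionField]

theorem mem_regularLocus_iff (f : C.functionField) (P : C) :
    P ∈ regularLocus f ↔ f ∈ Set.range (algebraMap (C.presheaf.stalk P) C.functionField) :=
  Iff.rfl

/-- A point lies in the regular locus iff `f` is represented by a section near it. -/
theorem mem_regularLocus_iff_exists (f : C.functionField) (P : C) :
    P ∈ regularLocus f ↔
      ∃ (W : C.Opens) (hP : P ∈ W) (t : Γ(C, W)),
        C.presheaf.germ W (genericPoint C)
          (((genericPoint_spec C).mem_open_set_iff W.isOpen).mpr ⟨P, trivial, hP⟩) t = f := by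
  constructor
  · rintro ⟨g, hg⟩
    obtain ⟨W, hPW, t, ht⟩ := C.presheaf.exists_germ_eq g
    have : Nonempty W := ⟨⟨P, hPW⟩⟩
    refine ⟨W, hPW, t, ?_⟩
    rw [← hg, ← ht, Scheme.algebraMap_germ_eq_germToFunctionField]
  · rintro ⟨W, hPW, t, ht⟩
    have : Nonempty W := ⟨⟨P, hPW⟩⟩
    refine ⟨C.presheaf.germ W P hPW t, ?_⟩
    rw [Scheme.algebraMap_germ_eq_germToFunctionField, ← ht]

theorem le_regularLocus_of_germToFunctionField_eq {f : C.functionField} {W : C.Opens}
    [Nonempty W] (t : Γ(C, W)) (ht : C.germToFunctionField W t = f) : W ≤ regularLocus f := by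
  intro P hP
  exact ⟨C.presheaf.germ W P hP t, by rw [Scheme.algebraMap_germ_eq_germToFunctionField, ht]⟩

instance nonempty_regularLocus (f : C.functionField) : Nonempty (regularLocus f) := by
  obtain ⟨W, hW, t, ht⟩ := C.presheaf.exists_germ_eq (x := genericPoint C) f
  have : Nonempty W := ⟨⟨_, hW⟩⟩
  exact ⟨⟨genericPoint C, le_regularLocus_of_germToFunctionField_eq t ht hW⟩⟩

/-- Every rational function is represented by a (unique) section over its regular locus. -/
theorem exists_section_regularLocus (f : C.functionField) :
    ∃ s' : Γ(C, regularLocus f), C.germToFunctionField (regularLocus f) s' = f := by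
  have hch : ∀ P : (regularLocus f), ∃ (W : C.Opens) (_ : (P : C) ∈ W) (_ : Nonempty W)
      (t : Γ(C, W)), C.germToFunctionField W t = f := by
    rintro ⟨P, hP⟩
    obtain ⟨W, hPW, t, ht⟩ := (mem_regularLocus_iff_exists f P).mp hP
    exact ⟨W, hPW, ⟨⟨P, hPW⟩⟩, t, ht⟩
  choose W hPW hne t ht using hch
  have hWle : ∀ P, W P ≤ regularLocus f := fun P ↦
    haveI := hne P
    le_regularLocus_of_germToFunctionField_eq (t P) (ht P)
  have hcover : regularLocus f ≤ iSup W := by
    intro P hP
    exact Opens.mem_iSup.mpr ⟨⟨P, hP⟩, hPW ⟨P, hP⟩⟩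
  have hcompat : TopCat.Presheaf.IsCompatible C.presheaf W t := by
    intro i j
    have := hne i
    have := hne j
    exact map_eq_map_of_germToFunctionField_eq (t i) (t j) ((ht i).trans (ht j).symm)
  obtain ⟨s', hs', -⟩ := C.sheaf.existsUnique_gluing' W (regularLocus f)
    (fun P ↦ homOfLE (hWle P)) hcover t hcompat
  refine ⟨s', ?_⟩
  obtain ⟨P⟩ := nonempty_regularLocus f
  have := hne P
  rw [← germToFunctionField_map (hWle P) s']
  exact (congrArg _ (hs' P)).trans (ht P)

/-- **S3 (general form).**  Let `C` be an integral scheme all of whose local rings are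
valuation rings of the function field (hypothesis `hval`, = leaf S2d).  A section `s` over a
nonempty open `U` extends to a largest open `U'`, and at every point outside `U'` the
inverse `1/s` is regular and vanishes. -/
theorem exists_maximal_extension_of_valuation
    (hval : ∀ (P : C) (f : C.functionField),
      f ∈ Set.range (algebraMap (C.presheaf.stalk P) C.functionField) ∨
        ∃ t ∈ IsLocalRing.maximalIdeal (C.presheaf.stalk P),
          algebraMap (C.presheaf.stalk P) C.functionField t * f = 1)
    {U : C.Opens} [Nonempty U] (s : Γ(C, U)) :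
    ∃ (U' : C.Opens) (hUU' : U ≤ U') (s' : Γ(C, U')),
      C.presheaf.map (homOfLE hUU').op s' = s ∧
      (∀ (W : C.Opens) (t : Γ(C, W)),
        C.presheaf.map (homOfLE (inf_le_left : U ⊓ W ≤ U)).op s =
          C.presheaf.map (homOfLE (inf_le_right : U ⊓ W ≤ W)).op t → W ≤ U') ∧
      (∀ P : C, P ∉ U' → ∃ (W : C.Opens) (t : Γ(C, W)), P ∈ W ∧ P ∉ C.basicOpen t ∧
        C.presheaf.map (homOfLE (inf_le_left : U' ⊓ W ≤ U')).op s' *
          C.presheaf.map (homOfLE (inf_le_right : U' ⊓ W ≤ W)).op t = 1) := by
  set f : C.functionField := C.germToFunctionField U s with hf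
  obtain ⟨s', hs'⟩ := exists_section_regularLocus f
  have hUU' : U ≤ regularLocus f := le_regularLocus_of_germToFunctionField_eq s rfl
  refine ⟨regularLocus f, hUU', s', ?_, ?_, ?_⟩
  · apply C.germToFunctionField_injective U
    rw [germToFunctionField_map, hs']
  · intro W t h P hP
    have : Nonempty W := ⟨⟨P, hP⟩⟩
    exact le_regularLocus_of_germToFunctionField_eq t
      (germToFunctionField_eq_of_map_eq_map s t h).symm hP
  · intro P hP
    rcases hval P f with h | ⟨g, hg, hgf⟩
    · exact absurd h hP
    · obtain ⟨W, hPW, t, ht⟩ := C.presheaf.exists_germ_eq g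
      have : Nonempty W := ⟨⟨P, hPW⟩⟩
      refine ⟨W, t, hPW, ?_, ?_⟩
      · rw [Scheme.mem_basicOpen _ _ _ hPW, ht]
        exact hg
      · have := nonempty_inf_of_nonempty (regularLocus f) W
        apply C.germToFunctionField_injective (regularLocus f ⊓ W)
        rw [map_mul, germToFunctionField_map, germToFunctionField_map, hs', map_one, mul_comm,
          ← hgf, ← ht, Scheme.algebraMap_germ_eq_germToFunctionField]

end Fermat.Agent.S25.H747
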