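/-
S25 / block CURVE, helper747: a domain which is (locally) standard smooth of relative
dimension one over an ARBITRARY field is a Dedekind domain and not a field.
Mathlib only.  Route: standard smooth of relative dimension one = etale over `K[X]`;
unramified over a PID => the maximal ideal of every local ring is principal => DVR.
-/
import Mathlib

set_option autoImplicit false

universe u

namespace Fermat.Agent.S25.H747

open IsLocalRing

/-- A noetherian domain, formally unramified and essentially of finite type over a principal
ideal domain: the local ring at every nonzero prime is a discrete valuation ring. -/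
theorem isDiscreteValuationRing_atPrime_of_unramified
    (R S : Type*) [CommRing R] [IsDomain R] [IsPrincipalIdealRing R]
    [CommRing S] [IsDomain S] [IsNoetherianRing S] [Algebra R S]
    [Algebra.EssFiniteType R S] [Algebra.FormallyUnramified R S]
    (q : Ideal S) [q.IsPrime] (hq : q ≠ ⊥) :
    IsDiscreteValuationRing (Localization.AtPrime q) := by
  let p : Ideal R := q.under R
  have : p.IsPrime := inferInstance
  have : q.LiesOver p := inferInstance
  let := Localization.AtPrime.algebraOfLiesOver p q
  have hun : Algebra.IsUnramifiedAt R q := inferInstance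
  have key := ((Algebra.isUnramifiedAt_iff_map_eq R p q).mp hun).2
  have hnf : ¬ IsField (Localization.AtPrime q) := by
    intro hf
    have h1 : maximalIdeal (Localization.AtPrime q) = ⊥ := isField_iff_maximalIdeal_eq.mp hf
    have h2 := Localization.AtPrime.map_eq_maximalIdeal (I := q)
    rw [h1, Ideal.map_eq_bot_iff_of_injective
      (IsLocalization.injective _ q.primeCompl_le_nonZeroDivisors)] at h2
    exact hq h2
  refine ((IsDiscreteValuationRing.TFAE (Localization.AtPrime q) hnf).out 0 4).mpr ?_
  rw [← key]
  obtain ⟨a, ha⟩ := (IsPrincipalIdealRing.principal p).principal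
  refine ⟨⟨algebraMap R (Localization.AtPrime q) a, ?_⟩⟩
  rw [ha, Ideal.submodule_span_eq, Ideal.map_span, Set.image_singleton]

/-- A domain which is unramified and of finite type over a principal ideal domain is a
Dedekind domain. -/
theorem isDedekindDomain_of_unramified_of_pid
    (R S : Type*) [CommRing R] [IsDomain R] [IsPrincipalIdealRing R]
    [CommRing S] [IsDomain S] [Algebra R S]
    [Algebra.FiniteType R S] [Algebra.FormallyUnramified R S] :
    IsDedekindDomain S := by
  have : IsNoetherianRing S := Algebra.FiniteType.isNoetherianRing R S
  have : IsDedekindDomainDvr S :=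
    { is_dvr_at_nonzero_prime := fun q hq _ ↦
        isDiscreteValuationRing_atPrime_of_unramified R S q hq }
  exact inferInstance

/-- The polynomial ring in one variable (in `MvPolynomial (Fin 1)` form) over a field is a
principal ideal ring. -/
theorem isPrincipalIdealRing_mvPolynomial_fin_one (K : Type*) [Field K] :
    IsPrincipalIdealRing (MvPolynomial (Fin 1) K) := by
  let e : MvPolynomial (Fin 1) K ≃ₐ[K] Polynomial K := MvPolynomial.uniqueAlgEquiv K (Fin 1)
  exact IsPrincipalIdealRing.of_surjective e.symm.toRingEquiv.toRingHom e.symm.surjective

theorem not_isField_mvPolynomial_fin_one (K : Type*) [Field K] :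
    ¬ IsField (MvPolynomial (Fin 1) K) := by
  let e : MvPolynomial (Fin 1) K ≃ₐ[K] Polynomial K := MvPolynomial.uniqueAlgEquiv K (Fin 1)
  intro h
  exact Polynomial.not_isField K (MulEquiv.isField h e.symm.toMulEquiv)

/-- A domain `S` etale over `K[X]` is not a field. -/
theorem not_isField_of_etale_mvPolynomial (K S : Type*) [Field K] [CommRing S] [IsDomain S]
    [Algebra K S] [Algebra (MvPolynomial (Fin 1) K) S] [IsScalarTower K (MvPolynomial (Fin 1) K) S]
    [Algebra.Etale (MvPolynomial (Fin 1) K) S] : ¬ IsField S := by
  intro hS
  have hft : Algebra.FiniteType K S :=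
    Algebra.FiniteType.trans (S := MvPolynomial (Fin 1) K) inferInstance inferInstance
  let := hS.toField
  have hfin : Module.Finite K S := finite_of_finite_type_of_isJacobsonRing K S
  have hinj : Function.Injective (algebraMap (MvPolynomial (Fin 1) K) S) :=
    FaithfulSMul.algebraMap_injective _ _
  have hfinR : Module.Finite K (MvPolynomial (Fin 1) K) :=
    Module.Finite.of_injective (IsScalarTower.toAlgHom K (MvPolynomial (Fin 1) K) S).toLinearMap
      hinj
  have : Algebra.IsIntegral K (MvPolynomial (Fin 1) K) := inferInstance
  exact not_isField_mvPolynomial_fin_one K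
    (isField_of_isIntegral_of_isField' (R := K) (Field.toIsField K))

/-- **Theorem A.** A domain which is standard smooth of relative dimension one over a field
is a Dedekind domain and not a field. -/
theorem isDedekindDomain_and_not_isField_of_isStandardSmooth (K S : Type*) [Field K]
    [CommRing S] [IsDomain S] [Algebra K S]
    (h : (algebraMap K S).IsStandardSmoothOfRelativeDimension 1) :
    IsDedekindDomain S ∧ ¬ IsField S := by
  obtain ⟨g, hg, hget⟩ := h.exists_etale_mvPolynomial
  algebraize [g]
  have : IsScalarTower K (MvPolynomial (Fin 1) K) S :=
    IsScalarTower.of_algebraMap_eq' (by rw [← hg]; rfl)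
  have := isPrincipalIdealRing_mvPolynomial_fin_one K
  exact ⟨isDedekindDomain_of_unramified_of_pid (MvPolynomial (Fin 1) K) S,
    not_isField_of_etale_mvPolynomial K S⟩

/-- A standard smooth ring homomorphism is of finite type. -/
theorem finiteType_of_isStandardSmoothOfRelativeDimension {R S : Type*} [CommRing R]
    [CommRing S] {f : R →+* S} {n : ℕ} (h : f.IsStandardSmoothOfRelativeDimension n) :
    f.FiniteType := by
  algebraize [f]
  have : Algebra.IsStandardSmooth R S := Algebra.IsStandardSmoothOfRelativeDimension.isStandardSmooth n
  have : Algebra.FinitePresentation R S := inferInstance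
  exact (inferInstance : Algebra.FiniteType R S)

/-- A locally standard smooth algebra is of finite type. -/
theorem finiteType_of_locally_isStandardSmooth {K B : Type u} [CommRing K]
    [CommRing B] [Algebra K B] {n : ℕ}
    (h : RingHom.Locally (RingHom.IsStandardSmoothOfRelativeDimension n) (algebraMap K B)) :
    Algebra.FiniteType K B := by
  obtain ⟨s, hs, hP⟩ := h
  exact RingHom.finiteType_algebraMap.mp
    (RingHom.finiteType_ofLocalizationSpanTarget (algebraMap K B) s hs
      (fun t ↦ finiteType_of_isStandardSmoothOfRelativeDimension (hP t t.2)))

/-- **Theorem B.** A domain which is locally standard smooth of relative dimension one over a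
field (any field) is a Dedekind domain and not a field. -/
theorem isDedekindDomain_and_not_isField_of_locally_isStandardSmooth {K B : Type u} [Field K]
    [CommRing B] [IsDomain B] [Algebra K B]
    (h : RingHom.Locally (RingHom.IsStandardSmoothOfRelativeDimension 1) (algebraMap K B)) :
    IsDedekindDomain B ∧ ¬ IsField B := by
  have hft : Algebra.FiniteType K B := finiteType_of_locally_isStandardSmooth h
  obtain ⟨s, hs, hP⟩ := h
  have hdom : ∀ t : B, t ≠ 0 → IsDomain (Localization.Away t) := fun t ht0 ↦
    IsLocalization.isDomain_localization (powers_le_nonZeroDivisors_of_noZeroDivisors ht0)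
  have hloc : ∀ t ∈ s, t ≠ 0 →
      IsDedekindDomain (Localization.Away t) ∧ ¬ IsField (Localization.Away t) := by
    intro t ht ht0
    have := hdom t ht0
    apply isDedekindDomain_and_not_isField_of_isStandardSmooth K
    rw [IsScalarTower.algebraMap_eq K B (Localization.Away t)]
    exact hP t ht
  have hnoeth : IsNoetherianRing B := Algebra.FiniteType.isNoetherianRing K B
  have hex : ∀ P : Ideal B, P ≠ ⊤ → ∃ t ∈ s, t ∉ P := by
    intro P hPtop
    by_contra hcon
    push Not at hcon
    have : Ideal.span s ≤ P := Ideal.span_le.mpr hcon
    rw [hs] at this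
    exact hPtop (top_le_iff.mp this)
  refine ⟨?_, ?_⟩
  · have hdvr : ∀ P ≠ (⊥ : Ideal B), ∀ _ : P.IsPrime,
        IsDiscreteValuationRing (Localization.AtPrime P) := by
      intro P hP0 hPprime
      obtain ⟨t, hts, htP⟩ := hex P hPprime.ne_top
      have ht0 : t ≠ 0 := fun h0 ↦ htP (h0 ▸ P.zero_mem)
      obtain ⟨hded, -⟩ := hloc t hts ht0
      have := hdom t ht0
      have hle : Submonoid.powers t ≤ P.primeCompl := (Submonoid.powers_le).mpr htP
      let : Algebra (Localization.Away t) (Localization.AtPrime P) :=
        IsLocalization.localizationAlgebraOfSubmonoidLe _ _ (Submonoid.powers t) P.primeCompl hle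
      have : IsScalarTower B (Localization.Away t) (Localization.AtPrime P) :=
        IsLocalization.localization_isScalarTower_of_submonoid_le _ _ _ _ hle
      have : IsLocalization (P.primeCompl.map (algebraMap B (Localization.Away t)))
          (Localization.AtPrime P) :=
        IsLocalization.isLocalization_of_submonoid_le _ _ (Submonoid.powers t) P.primeCompl hle
      have hM : P.primeCompl.map (algebraMap B (Localization.Away t)) ≤
          nonZeroDivisors (Localization.Away t) := by
        rintro _ ⟨y, hy, rfl⟩
        rw [mem_nonZeroDivisors_iff_ne_zero]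
        intro h0
        have hinj : Function.Injective (algebraMap B (Localization.Away t)) :=
          IsLocalization.injective _ (powers_le_nonZeroDivisors_of_noZeroDivisors ht0)
        have : y = 0 := hinj (by rw [h0, map_zero])
        exact hy (this ▸ P.zero_mem)
      have hded' : IsDedekindDomain (Localization.AtPrime P) :=
        IsLocalization.isDedekindDomain (Localization.Away t) hM _
      have hnf : ¬ IsField (Localization.AtPrime P) := by
        intro hf
        have h1 : maximalIdeal (Localization.AtPrime P) = ⊥ := isField_iff_maximalIdeal_eq.mp hf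
        have h2 := Localization.AtPrime.map_eq_maximalIdeal (I := P)
        rw [h1, Ideal.map_eq_bot_iff_of_injective
          (IsLocalization.injective _ P.primeCompl_le_nonZeroDivisors)] at h2
        exact hP0 h2
      exact ((IsDiscreteValuationRing.TFAE _ hnf).out 0 2).mpr hded'
    have : IsDedekindDomainDvr B := { is_dvr_at_nonzero_prime := hdvr }
    exact inferInstance
  · intro hB
    obtain ⟨t, hts, ht⟩ := hex ⊥ bot_ne_top
    have ht0 : t ≠ 0 := fun h0 ↦ ht (by simp [h0])
    obtain ⟨-, hnf⟩ := hloc t hts ht0
    have hunit : ∀ x ∈ Submonoid.powers t, IsUnit x := by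
      rintro _ ⟨n, rfl⟩
      let := hB.toField
      exact (IsUnit.mk0 t ht0).pow n
    exact hnf (MulEquiv.isField hB
      (IsLocalization.atUnits B (Submonoid.powers t) (S := Localization.Away t)
        hunit).symm.toMulEquiv)

open TensorProduct in
/-- Base change of a locally standard smooth algebra is locally standard smooth. -/
theorem locally_isStandardSmooth_tensorProduct {k B : Type u} [CommRing k]
    [CommRing B] [Algebra k B] {n : ℕ}
    (h : RingHom.Locally (RingHom.IsStandardSmoothOfRelativeDimension n) (algebraMap k B))
    (K : Type u) [CommRing K] [Algebra k K] :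
    RingHom.Locally (RingHom.IsStandardSmoothOfRelativeDimension n)
      (algebraMap K (K ⊗[k] B)) := by
  let : Algebra B (K ⊗[k] B) := Algebra.TensorProduct.rightAlgebra
  have : IsScalarTower k B (K ⊗[k] B) := Algebra.TensorProduct.right_isScalarTower
  have : Algebra.IsPushout k B K (K ⊗[k] B) := TensorProduct.isPushout'
  exact RingHom.locally_isStableUnderBaseChange
    RingHom.isStandardSmoothOfRelativeDimension_respectsIso
    (RingHom.isStandardSmoothOfRelativeDimension_isStableUnderBaseChange n)
    k B K (K ⊗[k] B) h

open TensorProduct in
/-- **Base change form (algebra core of C2).** If `B` is locally standard smooth of relative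
dimension one over a field `k`, `K` is any field extension and `K ⊗[k] B` is a domain, then
`K ⊗[k] B` is a Dedekind domain and not a field. -/
theorem isDedekindDomain_and_not_isField_tensorProduct {k B : Type u} [Field k]
    [CommRing B] [Algebra k B]
    (h : RingHom.Locally (RingHom.IsStandardSmoothOfRelativeDimension 1) (algebraMap k B))
    (K : Type u) [Field K] [Algebra k K] [IsDomain (K ⊗[k] B)] :
    IsDedekindDomain (K ⊗[k] B) ∧ ¬ IsField (K ⊗[k] B) :=
  isDedekindDomain_and_not_isField_of_locally_isStandardSmooth
    (locally_isStandardSmooth_tensorProduct h K)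

/-- Skeleton leaf **A2a** (exact statement of `Curve/Alg/Dedekind.lean`; the hypotheses
`IsAlgClosed` and `Algebra.FiniteType` are not needed). -/
theorem isDedekindDomain_of_locally_isStandardSmooth {k B : Type u} [Field k] [IsAlgClosed k]
    [CommRing B] [IsDomain B] [Algebra k B] [Algebra.FiniteType k B]
    (h : RingHom.Locally (RingHom.IsStandardSmoothOfRelativeDimension 1) (algebraMap k B)) :
    IsDedekindDomain B :=
  (isDedekindDomain_and_not_isField_of_locally_isStandardSmooth h).1

/-- Skeleton leaf **A2b** (exact statement of `Curve/Alg/Dedekind.lean`). -/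
theorem not_isField_of_locally_isStandardSmooth {k B : Type u} [Field k] [IsAlgClosed k]
    [CommRing B] [IsDomain B] [Algebra k B] [Algebra.FiniteType k B]
    (h : RingHom.Locally (RingHom.IsStandardSmoothOfRelativeDimension 1) (algebraMap k B)) :
    ¬ IsField B :=
  (isDedekindDomain_and_not_isField_of_locally_isStandardSmooth h).2

end Fermat.Agent.S25.H747
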